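import Mathlib.RingTheory.RootsOfUnity.CyclotomicUnits
import Mathlib.RingTheory.Polynomial.Cyclotomic.Eval
import Mathlib.Algebra.BigOperators.Associated

/-!
# CYCLO lemma (helper412, for RIBET row 38 CORE-OUT / ALG-p, ask of helper704 #9955)

`R` a domain, `p` prime, `ζ ∈ R` a primitive `p`-th root of unity.  Then
`(ζ - 1) ^ (p - 1) = p · ε` with `ε ∈ Rˣ`.

* `associated_sub_one_pow_natCast_h412 : Associated ((ζ - 1) ^ (p - 1)) (p : R)`
* `exists_isUnit_sub_one_pow_eq_h412 : ∃ ε, IsUnit ε ∧ (ζ - 1) ^ (p - 1) = (p : R) * ε`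
* `exists_isUnit_natCast_eq_h412     : ∃ ε, IsUnit ε ∧ (p : R) = (ζ - 1) ^ (p - 1) * ε`
Mathlib only.
-/

set_option autoImplicit false
set_option linter.style.haveILetI false

namespace Fermat.Agent.Ribet.H412

open Polynomial

variable {R : Type*} [CommRing R] [IsDomain R] {p : ℕ} {ζ : R}

/-- `p = ∏ (1 - μ)`, the product over the primitive `p`-th roots of unity. -/
theorem natCast_eq_prod_one_sub_h412 (hp : p.Prime) (hζ : IsPrimitiveRoot ζ p) :
    (p : R) = ∏ μ ∈ primitiveRoots p R, (1 - μ) := by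
  haveI : Fact p.Prime := ⟨hp⟩
  have h := congrArg (Polynomial.eval 1) (Polynomial.cyclotomic_eq_prod_X_sub_primitiveRoots hζ)
  rw [Polynomial.eval_one_cyclotomic_prime, Polynomial.eval_prod] at h
  rw [h]
  refine Finset.prod_congr rfl fun μ _ => ?_
  simp

/-- `(ζ - 1) ^ (p - 1)` and `p` are associated. -/
theorem associated_sub_one_pow_natCast_h412 (hp : p.Prime) (hζ : IsPrimitiveRoot ζ p) :
    Associated ((ζ - 1) ^ (p - 1)) (p : R) := by
  have h2 : ∀ μ ∈ primitiveRoots p R, Associated (ζ - 1) (1 - μ) := by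
    intro μ hμ
    have hμ' : IsPrimitiveRoot μ p := (mem_primitiveRoots hp.pos).1 hμ
    haveI : NeZero p := ⟨hp.ne_zero⟩
    obtain ⟨j, -, rfl⟩ := hζ.eq_pow_of_pow_eq_one hμ'.pow_eq_one
    have hjc : j.Coprime p := (hζ.pow_iff_coprime hp.pos j).1 hμ'
    have h3 := hζ.associated_sub_one_pow_sub_one_of_coprime hjc
    have h4 : (1 : R) - ζ ^ j = -(ζ ^ j - 1) := by ring
    rw [h4]
    exact h3.neg_right
  have h5 : Associated (∏ _μ ∈ primitiveRoots p R, (ζ - 1)) (∏ μ ∈ primitiveRoots p R, (1 - μ)) :=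
    Associated.prod _ _ _ h2
  rw [Finset.prod_const, hζ.card_primitiveRoots, Nat.totient_prime hp,
    ← natCast_eq_prod_one_sub_h412 hp hζ] at h5
  exact h5

/-- **CYCLO.**  `(ζ - 1) ^ (p - 1) = p · ε`, `ε` a unit. -/
theorem exists_isUnit_sub_one_pow_eq_h412 (hp : p.Prime) (hζ : IsPrimitiveRoot ζ p) :
    ∃ ε : R, IsUnit ε ∧ (ζ - 1) ^ (p - 1) = (p : R) * ε := by
  obtain ⟨u, hu⟩ := (associated_sub_one_pow_natCast_h412 hp hζ).symm
  exact ⟨u, u.isUnit, hu.symm⟩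

/-- `p = (ζ - 1) ^ (p - 1) · ε`, `ε` a unit. -/
theorem exists_isUnit_natCast_eq_h412 (hp : p.Prime) (hζ : IsPrimitiveRoot ζ p) :
    ∃ ε : R, IsUnit ε ∧ (p : R) = (ζ - 1) ^ (p - 1) * ε := by
  obtain ⟨u, hu⟩ := associated_sub_one_pow_natCast_h412 hp hζ
  exact ⟨u, u.isUnit, hu.symm⟩

end Fermat.Agent.Ribet.H412
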